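import Fermat.Agent.LT.Whit.Adel

/-!
# Deep principal congruence levels and approximation

`locKN v n` is the image of the matrices congruent to the identity modulo the `n`-th power of the
place; `deepLvl T m` uses it at the places of `T` and the maximal subgroup elsewhere.
-/

set_option autoImplicit false

noncomputable section

open Matrix IsDedekindDomain NumberField Filter WithZero
open scoped MatrixGroups
open FermatAgent.LT FermatAgent.LT.Whit

namespace FermatAgent.LT2.Whit

variable {L : Type*} [Field L] [NumberField L]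

/-- The matrices congruent to the identity modulo the `n`-th power of the place. -/
def locCN (v : HeightOneSpectrum (𝓞 L)) (n : ℕ) : Subgroup (GL (Fin 2) L) where
  carrier := {g | g ∈ locGL v ∧ ∀ i j,
    v.valuation L ((g.val - 1) i j) ≤ exp (-(n : ℤ))}
  one_mem' := ⟨(locGL v).one_mem, fun i j => by simp⟩
  mul_mem' := by
    rintro g h ⟨hg, hg'⟩ ⟨hh, hh'⟩
    refine ⟨(locGL v).mul_mem hg hh, fun i j => ?_⟩
    rw [show (g * h).val - 1 = g.val * (h.val - 1) + (g.val - 1) by
      rw [Units.val_mul, Matrix.mul_sub, Matrix.mul_one, sub_add_sub_cancel],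
      Matrix.add_apply, Matrix.mul_apply, Fin.sum_univ_two]
    refine (Valuation.map_add _ _ _).trans (max_le ((Valuation.map_add _ _ _).trans (max_le ?_ ?_))
      (hg' i j)) <;> rw [map_mul] <;>
      exact (mul_le_of_le_one_left zero_le (hg.1 _ _)).trans (hh' _ _)
  inv_mem' := by
    rintro g ⟨hg, hg'⟩
    have hi := (locGL v).inv_mem hg
    refine ⟨hi, fun i j => ?_⟩
    rw [show (g⁻¹).val - 1 = -((g⁻¹).val * (g.val - 1)) by
      rw [Matrix.mul_sub, Matrix.mul_one, Units.inv_mul, neg_sub],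
      Matrix.neg_apply, Valuation.map_neg, Matrix.mul_apply, Fin.sum_univ_two]
    refine (Valuation.map_add _ _ _).trans (max_le ?_ ?_) <;> rw [map_mul] <;>
      exact (mul_le_of_le_one_left zero_le (hi.1 _ _)).trans (hg' _ _)

/-- The image of `locCN` in the projective group. -/
def locKN (v : HeightOneSpectrum (𝓞 L)) (n : ℕ) : Subgroup (G2 L) :=
  (locCN v n).map ProjGenLinGroup.mk

/-- Congruence levels lie in the maximal compact group. -/
lemma locKN_le (v : HeightOneSpectrum (𝓞 L)) (n : ℕ) : locKN v n ≤ locK v :=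
  Subgroup.map_mono fun _ hg => hg.1

/-- Congruence levels decrease. -/
lemma locKN_anti (v : HeightOneSpectrum (𝓞 L)) {m n : ℕ} (h : m ≤ n) : locKN v n ≤ locKN v m :=
  Subgroup.map_mono fun _ hg => ⟨hg.1, fun i j => (hg.2 i j).trans (exp_le_exp.2 (by omega))⟩

/-- The level of depth zero is maximal. -/
lemma locKN_zero (v : HeightOneSpectrum (𝓞 L)) : locKN v 0 = locK v := by
  refine le_antisymm (locKN_le v 0) (Subgroup.map_mono fun g hg => ⟨hg, fun i j => ?_⟩)
  rw [Nat.cast_zero, neg_zero, exp_zero, Matrix.sub_apply]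
  refine (Valuation.map_sub _ _ _).trans (max_le (hg.1 i j) ?_)
  fin_cases i <;> fin_cases j <;> simp

/-- Membership from the shape of a matrix close to the identity. -/
lemma mem_locCN_of {v : HeightOneSpectrum (𝓞 L)} {n : ℕ} (hn : 0 < n) {g : GL (Fin 2) L}
    (h : ∀ i j, v.valuation L ((g.val - 1) i j) ≤ exp (-(n : ℤ))) : g ∈ locCN v n := by
  have hlt : ∀ i j, v.valuation L ((g.val - 1) i j) < 1 := fun i j =>
    (h i j).trans_lt (by rw [← exp_zero, exp_lt_exp]; omega)
  refine ⟨⟨fun i j => ?_, ?_⟩, h⟩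
  · rw [show g.val i j = (g.val - 1) i j + (1 : Matrix (Fin 2) (Fin 2) L) i j by simp]
    refine (Valuation.map_add _ _ _).trans (max_le (hlt i j).le ?_)
    fin_cases i <;> fin_cases j <;> simp
  · rw [Matrix.det_fin_two, show g.val 0 0 * g.val 1 1 - g.val 0 1 * g.val 1 0 = 1 +
      (((g.val - 1) 0 0 + (g.val - 1) 1 1) + ((g.val - 1) 0 0 * (g.val - 1) 1 1 -
        (g.val - 1) 0 1 * (g.val - 1) 1 0)) by simp; ring,
      Valuation.map_add_eq_of_lt_left _ ?_, map_one]
    rw [map_one]
    refine Valuation.map_add_lt _ (Valuation.map_add_lt _ (hlt _ _) (hlt _ _))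
      (lt_of_le_of_lt (Valuation.map_sub _ _ _) (max_lt ?_ ?_)) <;> rw [map_mul] <;>
      exact mul_lt_one_of_lt_of_le (hlt _ _) (hlt _ _).le

lemma exists_entry_bound (v : HeightOneSpectrum (𝓞 L)) (h : GL (Fin 2) L) :
    ∃ N : ℕ, ∀ i j, v.valuation L (h.val i j) ≤ exp (N : ℤ) := by
  refine ⟨(Finset.univ : Finset (Fin 2 × Fin 2)).sup
    fun p => (log (v.valuation L (h.val p.1 p.2))).toNat, fun i j => ?_⟩
  by_cases h0 : v.valuation L (h.val i j) = 0
  · rw [h0]; exact zero_le
  rw [← exp_log h0, exp_le_exp]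
  have h1 := Finset.le_sup (f := fun p : Fin 2 × Fin 2 =>
    (log (v.valuation L (h.val p.1 p.2))).toNat) (Finset.mem_univ (i, j))
  simp only at h1
  have := Int.self_le_toNat (log (v.valuation L (h.val i j)))
  omega

/-- Conjugating a deep enough subgroup lands in a given one. -/
lemma exists_conj_mem (v : HeightOneSpectrum (𝓞 L)) (h : G2 L) (m : ℕ) :
    ∃ n : ℕ, ∀ g ∈ locKN v n, h⁻¹ * g * h ∈ locKN v m := by
  obtain ⟨h, rfl⟩ := ProjGenLinGroup.mk_surjective h
  obtain ⟨a, ha⟩ := exists_entry_bound v h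
  obtain ⟨b, hb⟩ := exists_entry_bound v h⁻¹
  refine ⟨m + 1 + a + b, ?_⟩
  rintro _ ⟨g, hg, rfl⟩
  refine locKN_anti v (Nat.le_succ m) ⟨h⁻¹ * g * h, mem_locCN_of (Nat.succ_pos _) fun i j => ?_,
    by simp⟩
  rw [show (h⁻¹ * g * h).val - 1 = (h⁻¹).val * (g.val - 1) * h.val by
    rw [Matrix.mul_sub, Matrix.sub_mul, Matrix.mul_one, Units.inv_mul]; simp [mul_assoc]]
  rw [Matrix.mul_apply]
  refine Valuation.map_sum_le _ fun l _ => ?_
  rw [Matrix.mul_apply, Finset.sum_mul]
  refine Valuation.map_sum_le _ fun r _ => ?_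
  rw [map_mul, map_mul]
  refine (mul_le_mul' (mul_le_mul' (hb i r) (hg.2 r l)) (ha l j)).trans ?_
  rw [← exp_add, ← exp_add, exp_le_exp]
  push_cast
  omega

/-- Small translations lie in congruence levels. -/
lemma nB_mem_locKN {v : HeightOneSpectrum (𝓞 L)} {n : ℕ} {β : L}
    (hβ : v.valuation L β ≤ exp (-(n : ℤ))) : (nB β : G2 L) ∈ locKN v n := by
  have h1 : v.valuation L β ≤ 1 := hβ.trans (by rw [← exp_zero, exp_le_exp]; omega)
  refine ⟨_, ⟨uB_mem_locGL h1, fun i j => ?_⟩, rfl⟩
  fin_cases i <;> fin_cases j <;> first | (simp; done) | simpa using hβ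

/-- Small translations conjugate into a given subgroup. -/
lemma exists_small_nB (v : HeightOneSpectrum (𝓞 L)) (g : G2 L) (m : ℕ) :
    ∃ N : ℕ, ∀ β : L, v.valuation L β ≤ exp (-(N : ℤ)) → g⁻¹ * nB β * g ∈ locKN v m := by
  obtain ⟨n, hn⟩ := exists_conj_mem v g m
  exact ⟨n, fun β hβ => hn _ (nB_mem_locKN hβ)⟩

open Classical in
/-- The level `locKN v m` on `T`, maximal elsewhere. -/
def deepLvl (T : Finset (HeightOneSpectrum (𝓞 L))) (m : ℕ) : Level L where
  loc v := if v ∈ T then locKN v m else locK v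
  le v := by
    split_ifs
    exacts [locKN_le v m, le_rfl]
  eventually_eq := by
    filter_upwards [T.finite_toSet.compl_mem_cofinite] with v hv
    rw [if_neg (by simpa using hv)]

variable {T T' : Finset (HeightOneSpectrum (𝓞 L))} {m m' : ℕ} {v : HeightOneSpectrum (𝓞 L)}

/-- The deep level at a place of the set. -/
lemma deepLvl_loc_of_mem (hv : v ∈ T) : (deepLvl T m).loc v = locKN v m := by simp [deepLvl, hv]

/-- The deep level away from the set is maximal. -/
lemma deepLvl_loc_of_notMem (hv : v ∉ T) : (deepLvl T m).loc v = locK v := by simp [deepLvl, hv]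

/-- Congruence levels lie in deep levels. -/
lemma locKN_le_deepLvl (v : HeightOneSpectrum (𝓞 L)) : locKN v m ≤ (deepLvl T m).loc v := by
  by_cases hv : v ∈ T
  · rw [deepLvl_loc_of_mem hv]
  · rw [deepLvl_loc_of_notMem hv]; exact locKN_le v m

/-- Level groups are monotone. -/
lemma levelGrp_mono {U U' : Level L} (h : ∀ v, U.loc v ≤ U'.loc v) :
    levelGrp U ≤ levelGrp U' := fun _ hu v => h v (hu v)

/-- Deep level groups are monotone. -/
lemma levelGrp_deep_mono (hT : T ⊆ T') (hm : m ≤ m') :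
    levelGrp (deepLvl T' m') ≤ levelGrp (deepLvl T m) := levelGrp_mono fun v => by
  by_cases hv : v ∈ T'
  · rw [deepLvl_loc_of_mem hv]
    exact (locKN_anti v hm).trans (locKN_le_deepLvl v)
  · rw [deepLvl_loc_of_notMem hv, deepLvl_loc_of_notMem fun h => hv (hT h)]

/-- Conjugation of a deep level by an adelic element. -/
lemma exists_deep_conj (T : Finset (HeightOneSpectrum (𝓞 L))) (m : ℕ) (h : adelGrp L) :
    ∃ T' m', ∀ u ∈ levelGrp (deepLvl T' m'), h⁻¹ * u * h ∈ levelGrp (deepLvl T m) := by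
  classical
  choose n hn using fun v => exists_conj_mem v (h.1 v) m
  set T' := T ∪ (eventually_cofinite.1 h.2).toFinset
  refine ⟨T', T'.sup n, fun u hu v => ?_⟩
  have huv := hu v
  by_cases hv : v ∈ T'
  · rw [deepLvl_loc_of_mem hv] at huv
    exact locKN_le_deepLvl v (hn v _ (locKN_anti v (Finset.le_sup hv) huv))
  · rw [deepLvl_loc_of_notMem hv] at huv
    simp only [T', Finset.mem_union, Set.Finite.mem_toFinset, Set.mem_ofPred_eq, not_or,
      not_not] at hv
    rw [deepLvl_loc_of_notMem hv.1]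
    exact mul_mem (mul_mem (inv_mem hv.2) huv) hv.2

/-- Finitely many small translations fix a coset of a deep level. -/
lemma exists_small_per (T : Finset (HeightOneSpectrum (𝓞 L))) (m : ℕ) (a : adelGrp L) :
    ∃ d : 𝓞 L, d ≠ 0 ∧
      ∀ β : 𝓞 L, a⁻¹ * glob (nB ((d : L) * (β : L))) * a ∈ levelGrp (deepLvl T m) := by
  classical
  choose N hN using fun v => exists_small_nB v (a.1 v) m
  set T' := T ∪ (eventually_cofinite.1 a.2).toFinset
  obtain ⟨D, hD0, hD⟩ := Theta.Approx.exists_small T' (T'.sup N)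
  refine ⟨D, hD0, fun β v => ?_⟩
  show (a.1 v)⁻¹ * nB _ * a.1 v ∈ _
  by_cases hv : v ∈ T'
  · refine locKN_le_deepLvl v (hN v _ ?_)
    rw [map_mul]
    refine (mul_le_of_le_one_right zero_le (v.valuation_le_one β)).trans ((hD v hv).trans ?_)
    rw [exp_le_exp]
    have := Finset.le_sup (f := N) hv
    omega
  · simp only [T', Finset.mem_union, Set.Finite.mem_toFinset, Set.mem_ofPred_eq, not_or,
      not_not] at hv
    rw [deepLvl_loc_of_notMem hv.1]
    refine mul_mem (mul_mem (inv_mem hv.2) (nB_mem_locK ?_)) hv.2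
    rw [← map_mul]
    exact v.valuation_le_one (D * β)

/-- A global element lies in prescribed deep cosets at finitely many places. -/
theorem exists_glob_approx (T : Finset (HeightOneSpectrum (𝓞 L)))
    (g : HeightOneSpectrum (𝓞 L) → G2 L) (m : ℕ) :
    ∃ γ : G2 L, ∀ v ∈ T, (g v)⁻¹ * γ ∈ locKN v m := by
  classical
  rcases T.eq_empty_or_nonempty with rfl | hT
  · exact ⟨1, by simp⟩
  choose h hh using fun v => ProjGenLinGroup.mk_surjective (g v)
  choose e he using fun v => exists_entry_bound v (h v)⁻¹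
  choose x hx hx' using fun p : Fin 2 × Fin 2 =>
    Theta.Approx.exists_approx T (fun v => (h v).val p.1 p.2) (T.sup e + m + 1)
  let A : Matrix (Fin 2) (Fin 2) L := fun i j => x (i, j)
  have hsm : ∀ v ∈ T, ∀ i j,
      v.valuation L ((((h v)⁻¹).val * A - 1) i j) ≤ exp (-((m + 1 : ℕ) : ℤ)) := by
    intro v hv i j
    rw [← Units.inv_mul (h v), ← Matrix.mul_sub, Matrix.mul_apply]
    refine Valuation.map_sum_le _ fun l _ => ?_
    rw [map_mul]
    refine (mul_le_mul' (he v i l) (hx (l, j) v hv)).trans ?_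
    rw [← exp_add, exp_le_exp]
    have := Finset.le_sup (f := e) hv
    push_cast
    omega
  have hdet : A.det ≠ 0 := by
    obtain ⟨v, hv⟩ := hT
    intro h0
    set P := ((h v)⁻¹).val * A
    have hlt : ∀ i j, v.valuation L ((P - 1) i j) < 1 := fun i j =>
      (hsm v hv i j).trans_lt (by rw [← exp_zero, exp_lt_exp]; omega)
    have hP : v.valuation L P.det = 1 := by
      rw [Matrix.det_fin_two, show P 0 0 * P 1 1 - P 0 1 * P 1 0 = 1 +
        (((P - 1) 0 0 + (P - 1) 1 1) + ((P - 1) 0 0 * (P - 1) 1 1 - (P - 1) 0 1 * (P - 1) 1 0)) by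
          simp; ring, Valuation.map_add_eq_of_lt_left _ ?_, map_one]
      rw [map_one]
      refine Valuation.map_add_lt _ (Valuation.map_add_lt _ (hlt _ _) (hlt _ _))
        (lt_of_le_of_lt (Valuation.map_sub _ _ _) (max_lt ?_ ?_)) <;> rw [map_mul] <;>
        exact mul_lt_one_of_lt_of_le (hlt _ _) (hlt _ _).le
    rw [Matrix.det_mul, h0, mul_zero, map_zero] at hP
    exact zero_ne_one hP
  refine ⟨ProjGenLinGroup.mk (GeneralLinearGroup.mkOfDetNeZero A hdet), fun v hv => ?_⟩
  refine locKN_anti v (Nat.le_succ m)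
    ⟨(h v)⁻¹ * GeneralLinearGroup.mkOfDetNeZero A hdet,
      mem_locCN_of (Nat.succ_pos _) (hsm v hv), ?_⟩
  rw [map_mul, map_inv, hh]

/-- Moving finitely many components into a deep level. -/
theorem exists_glob_mul (T P : Finset (HeightOneSpectrum (𝓞 L))) (m : ℕ) (a : adelGrp L) :
    ∃ (γ : G2 L) (a' u : adelGrp L), u ∈ levelGrp (deepLvl T m) ∧ (∀ v ∈ P, a'.1 v = 1) ∧
      a = glob γ * a' * u := by
  classical
  obtain ⟨γ, hγ⟩ := exists_glob_approx P a.1 m
  let b := (glob γ)⁻¹ * a
  have hb : ∀ v ∈ P, b.1 v ∈ locKN v m := fun v hv => by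
    have := (locKN v m).inv_mem (hγ v hv)
    rwa [_root_.mul_inv_rev, inv_inv] at this
  let u : adelGrp L := ⟨fun v => if v ∈ P then b.1 v else 1, by
    filter_upwards [P.finite_toSet.compl_mem_cofinite] with v hv
    rw [if_neg (by simpa using hv)]
    exact one_mem _⟩
  refine ⟨γ, b * u⁻¹, u, fun v => ?_, fun v hv => ?_, ?_⟩
  · show (if v ∈ P then b.1 v else 1) ∈ (deepLvl T m).loc v
    split_ifs with hv
    · exact locKN_le_deepLvl v (hb v hv)
    · exact one_mem _
  · show b.1 v * (if v ∈ P then b.1 v else 1)⁻¹ = 1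
    rw [if_pos hv, mul_inv_cancel]
  · show a = glob γ * (b * u⁻¹) * u
    simp [b, mul_assoc]

end FermatAgent.LT2.Whit
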