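import Fermat.Agent.LT2.Whit.Arch

/-!
# The constant term of a bounded radial form vanishes

Along the height at one infinite place the constant term solves the Euler equation with the double
exponent one; boundedness forces zero.
-/

set_option autoImplicit false

noncomputable section

open Matrix IsDedekindDomain NumberField Filter MeasureTheory
open FermatAgent.LT FermatAgent.LT.Whit
open scoped MatrixGroups ContDiff Topology

namespace FermatAgent.LT2.Whit

/-- A bounded solution of `t² A'' - t A' + A = 0` on the half line vanishes. -/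
lemma euler_bounded_eq_zero {A A1 A2 : ℝ → ℂ} {B : ℝ} (hB : ∀ t, 0 < t → ‖A t‖ ≤ B)
    (h : ∀ t, 0 < t → HasDerivAt A (A1 t) t ∧ HasDerivAt A1 (A2 t) t ∧
      (t : ℂ) ^ 2 * A2 t - (t : ℂ) * A1 t + A t = 0) {t : ℝ} (ht : 0 < t) : A t = 0 := by
  have hid : ∀ s : ℝ, HasDerivAt (fun x : ℝ => (x : ℂ)) 1 s := fun s => by
    simpa using (hasDerivAt_id s).ofReal_comp
  set C : ℝ → ℂ := fun s => A1 s - A s / (s : ℂ)
  set G : ℝ → ℂ := fun s => A (Real.exp s) / (Real.exp s : ℂ)
  have hC : ∀ s, 0 < s → HasDerivAt C 0 s := fun s hs => by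
    obtain ⟨h1, h2, h3⟩ := h s hs
    have hsc : (s : ℂ) ≠ 0 := by exact_mod_cast hs.ne'
    refine (h2.sub (h1.div (hid s) hsc)).congr_deriv ?_
    field_simp
    linear_combination h3
  have hconst : ∀ {s u : ℝ}, 0 < s → s ≤ u → C u = C s := fun {s u} hs hsu =>
    constant_of_has_deriv_right_zero
      (fun x hx => (hC x (hs.trans_le hx.1)).continuousAt.continuousWithinAt)
      (fun x hx => (hC x (hs.trans_le hx.1)).hasDerivWithinAt) u ⟨hsu, le_rfl⟩
  set b := C 1
  have hb : ∀ s, 0 < s → C s = b := fun s hs => by
    rcases le_total s 1 with h' | h'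
    · exact (hconst hs h').symm
    · exact hconst one_pos h'
  have hG : ∀ s, HasDerivAt G b s := fun s => by
    have he := Real.exp_pos s
    have hec : (Real.exp s : ℂ) ≠ 0 := by exact_mod_cast he.ne'
    have h1 := ((h _ he).1.div (hid _) hec).scomp s (Real.hasDerivAt_exp s)
    refine h1.congr_deriv ?_
    rw [← hb _ he, Complex.real_smul]
    simp only [C]
    field_simp
  have hlin : ∀ s, G s = G 0 + (s : ℂ) * b := fun s => by
    set D : ℝ → ℂ := fun x => G x - (x : ℂ) * b
    have hD : ∀ x, HasDerivAt D 0 x := fun x =>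
      ((hG x).sub ((hid x).mul_const b)).congr_deriv (by simp)
    have h0 := is_const_of_deriv_eq_zero (fun x => (hD x).differentiableAt)
      (fun x => (hD x).deriv) s 0
    simp only [D, Complex.ofReal_zero, zero_mul, sub_zero] at h0
    linear_combination h0
  have hlim : Tendsto G atTop (𝓝 0) := by
    refine squeeze_zero_norm (fun s => ?_)
      ((tendsto_const_nhds.div_atTop Real.tendsto_exp_atTop) :
        Tendsto (fun s => B / Real.exp s) atTop (𝓝 0))
    rw [norm_div, Complex.norm_real, Real.norm_eq_abs, abs_of_pos (Real.exp_pos s)]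
    exact div_le_div_of_nonneg_right (hB _ (Real.exp_pos s)) (Real.exp_pos s).le
  have hb0 : b = 0 := by
    have h1 : Tendsto (fun s => G (s + 1) - G s) atTop (𝓝 0) := by
      simpa using (hlim.comp (tendsto_atTop_add_const_right atTop (1 : ℝ) tendsto_id)).sub hlim
    have e : (fun s : ℝ => G (s + 1) - G s) = fun _ => b := funext fun s => by
      rw [hlin (s + 1), hlin s]; push_cast; ring
    rw [e] at h1
    exact tendsto_nhds_unique tendsto_const_nhds h1
  have hG0 : G 0 = 0 := by
    rw [show G = fun _ => G 0 from funext fun s => by rw [hlin s, hb0, mul_zero, add_zero]] at hlim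
    exact tendsto_nhds_unique tendsto_const_nhds hlim
  have htc : (t : ℂ) ≠ 0 := by exact_mod_cast ht.ne'
  have h0 := hlin (Real.log t)
  rw [hb0, hG0, mul_zero, add_zero] at h0
  simp only [G, Real.exp_log ht] at h0
  exact (div_eq_zero_iff.1 h0).resolve_right htc

variable {L : Type*} [Field L] [NumberField L] [IsTotallyComplex L]
  {f : InfPts L → adelGrp L → ℂ}

open Classical in
/-- **The constant term vanishes.** -/
theorem IsForm.constTerm_eq_zero_of_radial (hf : IsForm f) (hr : IsRadial f) (y : InfPts L)
    (a : adelGrp L) : constTerm f y a = 0 := by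
  obtain ⟨B, hB⟩ := hf.bdd
  obtain ⟨w⟩ := (inferInstance : Nonempty (InfinitePlace L))
  set A : ℝ → ℂ := fun t =>
    if h : 0 < t then constTerm f (Function.update y w ⟨(y w).z, t, h⟩) a else 0
  have hFA : ∀ p : H3, constTerm f (Function.update y w p) a =
      Complex.exp (((0 : ℝ) * p.z.re : ℝ) * Complex.I) * A p.t := fun p => by
    rw [zero_mul, Complex.ofReal_zero, zero_mul, Complex.exp_zero, one_mul]
    simp only [A, dif_pos p.t_pos]
    rw [show Function.update y w p = transl (Pi.single w (p.z - (y w).z))
        (Function.update y w ⟨(y w).z, p.t, p.t_pos⟩) by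
      funext v
      by_cases h : v = w
      · subst h; exact H3.ext (by simp) (by simp)
      · refine H3.ext ?_ ?_ <;> simp [Function.update_of_ne h, Pi.single_eq_of_ne h],
      hf.constTerm_transl]
  obtain ⟨A1, A2, hA⟩ :=
    ode_of_radial (F := fun p => constTerm f (Function.update y w p) a) (A := A)
    (μ := 0) ⟨(continuous_meanAt_update hf.cont hf.bdd _ _ w y a).measurable,
      fun _ _ _ _ => ⟨B, fun p _ => norm_meanAt_le hB _ _ _ _⟩⟩ hFA (h := hT)
    (fun k hk hs p => by
      have := meanAt_radial hr hf.cont hf.bdd 0 (per f a) w k hk hs (Function.update y w p) a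
      simpa [constTerm, Function.update_idem] using this)
    contDiff_bump bump.hasCompactSupport hT_bump_ne_zero
  have key : A (y w).t = 0 := euler_bounded_eq_zero (A1 := A1) (A2 := A2) (B := B)
    (fun t ht => by simp only [A, dif_pos ht]; exact norm_meanAt_le hB _ _ _ _)
    (fun t ht => by
      obtain ⟨h1, h2, h3⟩ := hA t ht
      refine ⟨h1, h2, ?_⟩
      rw [hT_lapK contDiff_bump bump.hasCompactSupport hT_bump_ne_zero] at h3
      refine (mul_eq_zero.1 (show hT (bump : ℝ → ℝ) * _ = 0 from ?_)).resolve_left hT_bump_ne_zero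
      push_cast at h3
      linear_combination h3) (y w).t_pos
  simp only [A, dif_pos (y w).t_pos] at key
  rwa [Function.update_eq_self] at key

end FermatAgent.LT2.Whit
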