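import Fermat.Agent.LT2.Whit.Hecke
import Fermat.Agent.LT.Whit.Tame3
import Fermat.Agent.LT.Whit.Lift
import Fermat.Agent.LT2.Whit.ConstZero

/-!
# Uniqueness at deep level

At a place where the form is invariant under the maximal compact subgroup and is a Hecke
eigenfunction one value determines the others, so a few values determine the form; and forms from
functions on the adelic space.
-/

set_option autoImplicit false

noncomputable section

open Matrix IsDedekindDomain NumberField Filter WithZero MeasureTheory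
open FermatAgent.LT FermatAgent.LT.Whit
open FermatAgent.LT.Theta.LocalChar
open scoped MatrixGroups ContDiff

namespace FermatAgent.LT2.Whit

variable {L : Type*} [Field L] [NumberField L] [IsTotallyComplex L]
  {f : InfPts L → adelGrp L → ℂ} (hf : IsForm f) {v : HeightOneSpectrum (𝓞 L)}

/-- The normalised points: a torus component at the places of `P`, the first layer elsewhere. -/
def IsTorusPt (P : Finset (HeightOneSpectrum (𝓞 L))) (a : adelGrp L) : Prop :=
  (∀ v ∈ P, ∃ α : Lˣ, a.1 v = dG α) ∧ ∀ v ∉ P, a.1 v = dG (unifU v ^ (-cnd v))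

include hf in
/-- A radial form, unramified Hecke eigen outside `P`, with vanishing Whittaker values at the
normalised points has no Whittaker function on torus points of `P`. -/
theorem IsForm.W_eq_zero_of_pts (hr : IsRadial f) (P : Finset (HeightOneSpectrum (𝓞 L)))
    (hK : ∀ v ∉ P, FixedAt f v (locK v)) (c : HeightOneSpectrum (𝓞 L) → ℂ)
    (hc : ∀ v ∉ P, heckeT v f = c v • f)
    (h0 : ∀ a, IsTorusPt P a → W f baseY a = 0) (y : InfPts L) (a : adelGrp L)
    (ha : ∀ v ∈ P, ∃ α : Lˣ, a.1 v = dG α) : W f y a = 0 := by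
  classical
  suffices key : ∀ (F : Finset (HeightOneSpectrum (𝓞 L))) (y : InfPts L) (a : adelGrp L),
      (∀ v ∈ P, ∃ α : Lˣ, a.1 v = dG α) →
      (∀ v ∉ F, v ∉ P → a.1 v = dG (unifU v ^ (-cnd v))) → W f y a = 0 by
    obtain ⟨S, m, hU⟩ := hf.smooth
    let bad : Set (HeightOneSpectrum (𝓞 L)) :=
      {v | a.1 v ∉ locK v} ∪ ({v | cnd v ≠ 0} ∪ (S ∪ P : Finset _))
    have hbad : bad.Finite := (eventually_cofinite.1 a.2).union
      ((eventually_cofinite.1 Theta.LocalChar.eventually_cond_eq_zero).union (S ∪ P).finite_toSet)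
    let b : adelGrp L := ⟨fun v => if v ∈ bad then a.1 v else 1, show ∀ᶠ v in cofinite, _ by
      filter_upwards [hbad.compl_mem_cofinite] with v hv
      rw [if_neg hv]; exact one_mem _⟩
    have hab : b⁻¹ * a ∈ levelGrp (deepLvl S m) := fun v => by
      show (if v ∈ bad then a.1 v else 1)⁻¹ * a.1 v ∈ _
      split_ifs with hv
      · simp
      · simp only [bad, Set.mem_union, Set.mem_ofPred_eq, Finset.coe_union, Finset.mem_coe,
          not_or, not_not] at hv
        rw [inv_one, one_mul, deepLvl_loc_of_notMem hv.2.2.1]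
        exact hv.1
    rw [show a = b * (b⁻¹ * a) from (mul_inv_cancel_left b a).symm,
      hf.W_right fun y c => hU y c _ hab]
    refine key hbad.toFinset y b (fun v hv => ?_) fun v hv hvP => ?_
    · have hvbad : v ∈ bad := Or.inr (Or.inr (by simp [hv]))
      obtain ⟨α, hα⟩ := ha v hv
      exact ⟨α, by show (if v ∈ bad then a.1 v else 1) = _; rw [if_pos hvbad]; exact hα⟩
    · rw [Set.Finite.mem_toFinset] at hv
      show (if v ∈ bad then a.1 v else 1) = _
      rw [if_neg hv]
      simp only [bad, Set.mem_union, Set.mem_ofPred_eq, not_or, not_not] at hv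
      rw [hv.2.1, neg_zero, zpow_zero, dG_one]
  intro F
  induction F using Finset.induction_on with
  | empty =>
    intro y a ha hF
    exact W_eq_zero_of_base hf hr a (h0 a ⟨ha, fun v hv => hF v (Finset.notMem_empty v) hv⟩) y
  | insert v F hvF ih =>
    intro y a ha hF
    by_cases hvP : v ∈ P
    · exact ih y a ha fun w hw hwP => hF w (by simp [hw, (ne_of_mem_of_not_mem hvP hwP).symm]) hwP
    obtain ⟨β, α, k, b, hk, hb, hbw, rfl⟩ := exists_slot v a
    have hne : ∀ {w}, w ∈ P → w ≠ v := fun hw e => hvP (e ▸ hw)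
    have hnorm : W f y (b * atV v (dG (unifU v ^ (-cnd v)))) = 0 := by
      refine ih y _ (fun w hw => ?_) fun w hw hwP => ?_
      · obtain ⟨γ, hγ⟩ := ha w hw
        refine ⟨γ, ?_⟩
        show b.1 w * (atV v _).1 w = _
        rw [atV_ne (hne hw), mul_one, hbw w (hne hw), hγ]
      · show b.1 w * (atV v _).1 w = _
        by_cases hwv : w = v
        · subst hwv; simp [hb]
        · rw [atV_ne hwv, mul_one, hbw w hwv, hF w (by simp [hwv, hw]) hwP]
    rw [hf.W_atV_nB, hf.W_fixed (hK v hvP) hk]
    obtain ⟨n, hn⟩ : ∃ n : ℤ, v.valuation L (α : L) = v.valuation L ((unifU v ^ n : Lˣ) : L) :=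
      pow_eq_unif v α
    rw [hf.W_dG_unit v (hK v hvP) α (unifU v ^ n) hn]
    rcases lt_or_ge n (-cnd v) with hneg | hpos
    · rw [hf.W_eq_zero_of_lt' (hK v hvP) (α := unifU v ^ n) (by simp [hb]) (by
        rw [v_unifU_zpow, exp_le_exp]; omega), mul_zero]
    · obtain ⟨m, rfl⟩ : ∃ m : ℕ, n = (m : ℤ) - cnd v := ⟨(n + cnd v).toNat, by omega⟩
      rw [hf.W_recursion' v (hK v hvP) (hc v hvP) hb, hnorm, mul_zero, mul_zero]

include hf in
/-- Uniqueness: such a form vanishes. -/
theorem IsForm.eq_zero_of_pts (hr : IsRadial f) (P : Finset (HeightOneSpectrum (𝓞 L)))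
    (hK : ∀ v ∉ P, FixedAt f v (locK v)) (c : HeightOneSpectrum (𝓞 L) → ℂ)
    (hc : ∀ v ∉ P, heckeT v f = c v • f)
    (h0 : ∀ a, IsTorusPt P a → W f baseY a = 0) : f = 0 := by
  funext y a
  exact hf.eq_zero_of_off P (hf.constTerm_eq_zero_of_radial hr)
    (fun y b hb => hf.W_eq_zero_of_pts hr P hK c hc h0 y b hb) y a

/-! ### Lifting from the adelic space -/

variable {U : Level L} {φ : Space U → ℂ}

omit [IsTotallyComplex L]

/-- Deep levels give smooth lifts. -/
theorem isSmooth_liftF (hU : ∀ v, ∃ n, locKN v n ≤ U.loc v) : IsSmooth (liftF U φ) := by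
  classical
  choose n hn using hU
  set T := (eventually_cofinite.1 U.eventually_eq).toFinset
  refine ⟨T, T.sup n, fun y a u hu => ?_⟩
  show φ (y, _) = φ (y, _)
  rw [cls_mul_of_mem a fun v => ?_]
  have := hu v
  by_cases hv : v ∈ T
  · rw [deepLvl_loc_of_mem hv] at this
    exact hn v (locKN_anti v (Finset.le_sup hv) this)
  · rw [deepLvl_loc_of_notMem hv] at this
    simp only [T, Set.Finite.mem_toFinset, Set.mem_ofPred_eq, not_not] at hv
    rwa [hv]

/-- Lifts are fixed by the level. -/
lemma fixedAt_liftF (v : HeightOneSpectrum (𝓞 L)) : FixedAt (liftF U φ) v (U.loc v) :=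
  fun g hg y a => by
    show φ (y, _) = φ (y, _)
    rw [cls_mul_of_mem a (atV_mem_levelGrp hg)]

/-- An invariant bounded radial function on the space lifts to a form. -/
theorem isForm_liftF (hU : ∀ v, ∃ n, locKN v n ≤ U.loc v)
    (hinv : ∀ (g : G2 L) x, φ (g • x) = φ x) (hm : Measurable φ)
    (hb : ∃ B, ∀ x, ‖φ x‖ ≤ B) (hrad : IsRadial (liftF U φ)) : IsForm (liftF U φ) where
  glob_smul γ y a := by
    show φ (γ • y, cls _ (glob γ * a)) = φ (y, cls _ a)
    rw [cls_glob_mul]
    exact hinv γ (y, cls _ a)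
  smooth := isSmooth_liftF hU
  cont a := by
    obtain ⟨B, hB⟩ := hb
    exact continuous_of_radial (f := fun y => φ (y, cls _ a)) (hm.comp measurable_prodMk_right)
      (B := B) (fun y => hB _) bump.continuous bump.hasCompactSupport hT_bump_ne_zero
      fun w y => hrad w _ contDiff_bump bump.hasCompactSupport y a
  bdd := hb.imp fun B hB y a => hB _

/-- Lifts of Hecke eigenfunctions are eigenforms. -/
theorem heckeT_liftF (hv : U.loc v = locK v) {c : ℂ}
    (hc : ∀ x, heckeOp v φ x = c * φ x) : heckeT v (liftF U φ) = c • liftF U φ := by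
  funext y a
  show _ = c * φ (y, cls _ a)
  rw [← hc, heckeOp_cls v hv]
  rfl

end FermatAgent.LT2.Whit
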