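import Fermat.Agent.LT2.Whit.Local

/-!
# Eigenforms outside a finite set of places

The forms which are maximal-compact invariant and Hecke eigen with given eigenvalues outside a
finite set, at arbitrary deep level inside it.
-/

set_option autoImplicit false

noncomputable section

open Matrix IsDedekindDomain NumberField Filter MeasureTheory
open FermatAgent.LT FermatAgent.LT.Whit
open scoped MatrixGroups ContDiff

namespace FermatAgent.LT2.Whit

variable {L : Type*} [Field L] [NumberField L]
  {S T : Finset (HeightOneSpectrum (𝓞 L))} {c : HeightOneSpectrum (𝓞 L) → ℂ}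
  {f g : InfPts L → adelGrp L → ℂ}

/-- An eigenform, necessarily cuspidal, with the given eigenvalues outside `S`. -/
structure IsGood (S : Finset (HeightOneSpectrum (𝓞 L))) (c : HeightOneSpectrum (𝓞 L) → ℂ)
    (f : InfPts L → adelGrp L → ℂ) : Prop where
  form : IsForm f
  radial : IsRadial f
  fixed : ∀ v ∉ S, FixedAt f v (locK v)
  eigen : ∀ v ∉ S, heckeT v f = c v • f

namespace IsGood

/-- Zero is good. -/
lemma zero : IsGood S c (0 : InfPts L → adelGrp L → ℂ) where
  form := IsForm.zero
  radial := fun _ _ _ _ _ _ => by simp [kint]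
  fixed _ _ _ _ _ _ := rfl
  eigen v _ := by funext y a; simp [heckeT]

/-- Multiples of good forms are good. -/
lemma smul (hf : IsGood S c f) (r : ℂ) : IsGood S c (r • f) where
  form := hf.form.smul r
  radial := IsRadial.smul' hf.radial r
  fixed v hv g hg y a := by simp only [Pi.smul_apply, hf.fixed v hv g hg y a]
  eigen v hv := by
    funext y a
    have h1 := congrFun (congrFun (hf.eigen v hv) y) a
    simp only [heckeT, Pi.smul_apply, smul_eq_mul, ← Finset.mul_sum] at h1 ⊢
    linear_combination r * h1

/-- Differences of good forms are good. -/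
lemma sub (hf : IsGood S c f) (hg : IsGood S c g) : IsGood S c (f - g) where
  form := hf.form.sub hg.form
  radial := IsRadial.sub' hf.form hf.radial hg.form hg.radial
  fixed v hv h hh y a := by simp only [Pi.sub_apply, hf.fixed v hv h hh y a, hg.fixed v hv h hh y a]
  eigen v hv := by
    funext y a
    have h1 := congrFun (congrFun (hf.eigen v hv) y) a
    have h2 := congrFun (congrFun (hg.eigen v hv) y) a
    simp only [heckeT, Pi.smul_apply, smul_eq_mul, Pi.sub_apply, Finset.sum_sub_distrib] at h1 h2 ⊢
    linear_combination h1 - h2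

/-- Sums of good forms are good. -/
lemma add (hf : IsGood S c f) (hg : IsGood S c g) : IsGood S c (f + g) := by
  rw [show f + g = f - (-1 : ℂ) • g by simp]
  exact hf.sub (hg.smul _)

/-- Finite sums of good forms are good. -/
lemma sum {ι : Type*} (s : Finset ι) (F : ι → InfPts L → adelGrp L → ℂ)
    (h : ∀ i ∈ s, IsGood S c (F i)) : IsGood S c (∑ i ∈ s, F i) := by
  classical
  induction s using Finset.induction_on with
  | empty => simpa using IsGood.zero
  | insert b s hb ih =>
    rw [Finset.sum_insert hb]
    exact (h b (Finset.mem_insert_self _ _)).add (ih fun i hi => h i (Finset.mem_insert_of_mem hi))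

/-- Translations inside the set of places. -/
lemma rt (hf : IsGood S c f) {h : adelGrp L} (hh : ∀ v ∉ S, h.1 v = 1) :
    IsGood S c (Whit.rt h f) where
  form := hf.form.rt h
  radial := hf.radial.rt h
  fixed v hv k hk y a := by
    show f y (a * atV v k * h) = f y (a * h)
    rw [mul_assoc, atV_mul_of_eq_one (hh v hv), ← mul_assoc, hf.fixed v hv k hk]
  eigen v hv := by
    funext y a
    have h1 := congrFun (congrFun (hf.eigen v hv) y) (a * h)
    have e : ∀ k : G2 L, a * atV v k * h = a * h * atV v k := fun k => by
      rw [mul_assoc, mul_assoc, atV_mul_of_eq_one (hh v hv)]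
    simp only [heckeT, Pi.smul_apply, smul_eq_mul, Whit.rt_apply, e] at h1 ⊢
    exact h1

/-- Translates at excluded places are good. -/
lemma rt_atV (hf : IsGood S c f) {v : HeightOneSpectrum (𝓞 L)} (hv : v ∈ S) (k : G2 L) :
    IsGood S c (Whit.rt (atV v k) f) :=
  hf.rt fun w hw => atV_ne (fun e : w = v => hw (e ▸ hv)) k

/-- Goodness is monotone in the excluded set. -/
lemma mono (hf : IsGood S c f) (h : S ⊆ T) : IsGood T c f :=
  ⟨hf.form, hf.radial, fun v hv => hf.fixed v fun hS => hv (h hS),
    fun v hv => hf.eigen v fun hS => hv (h hS)⟩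

variable [IsTotallyComplex L] in
/-- A nonzero form has a nonzero Whittaker value over a torus element at finitely many places. -/
theorem exists_W_ne (hf : IsGood S c f) (hne : f ≠ 0) (P : Finset (HeightOneSpectrum (𝓞 L))) :
    ∃ (y : InfPts L) (b : adelGrp L), (∀ v ∈ P, ∃ α : Lˣ, b.1 v = dG α) ∧ W f y b ≠ 0 := by
  by_contra hcon
  push Not at hcon
  exact hne (funext fun y => funext fun a => hf.form.eq_zero_of_off P
    (hf.form.constTerm_eq_zero_of_radial hf.radial) hcon y a)

/-- One deep level inside `S` and the maximal one outside fix the form. -/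
theorem exists_level (hf : IsGood S c f) :
    ∃ m : ℕ, ∀ (y : InfPts L) (a u : adelGrp L),
      u ∈ levelGrp (deepLvl S m) → f y (a * u) = f y a := by
  classical
  obtain ⟨T, m, hU⟩ := hf.form.smooth
  refine ⟨m, fun y a u hu => right_of_local (Φ := f y) (T \ S) u (fun v hv b => ?_)
    (fun u' h1 h2 b => hU y b u' fun v => ?_) a⟩
  · have hvS := (Finset.mem_sdiff.1 hv).2
    exact hf.fixed v hvS _ ((deepLvl_loc_of_notMem hvS) ▸ hu v) y b
  · by_cases hv : v ∈ T \ S
    · rw [h1 v hv]; exact one_mem _
    · rw [h2 v hv]
      by_cases hvT : v ∈ T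
      · have hvS : v ∈ S := by_contra fun h => hv (Finset.mem_sdiff.2 ⟨hvT, h⟩)
        have huv := hu v
        rw [deepLvl_loc_of_mem hvS] at huv
        rwa [deepLvl_loc_of_mem hvT]
      · rw [deepLvl_loc_of_notMem hvT]
        exact (deepLvl S m).le v (hu v)

end IsGood

end FermatAgent.LT2.Whit
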