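import Fermat.Agent.LT.Whit.Mean
import Fermat.Agent.LT2.Whit.Deep

/-!
# Whittaker coefficients of automorphic functions of arbitrary deep level

A form is invariant on the right under some deep level, so the class of forms is stable under every
right translation and the coefficients need no reference to a level.
-/

set_option autoImplicit false

noncomputable section

open Matrix IsDedekindDomain NumberField Filter MeasureTheory
open FermatAgent.LT FermatAgent.LT.Whit
open FermatAgent.LT.Periodic (ivec)
open FermatAgent.LT.Theta.LocalChar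
open scoped MatrixGroups

namespace FermatAgent.LT2.Whit

variable {L : Type*} [Field L] [NumberField L] [IsTotallyComplex L]

/-- Invariance on the right under some deep level. -/
def IsSmooth (f : InfPts L → adelGrp L → ℂ) : Prop :=
  ∃ (T : Finset (HeightOneSpectrum (𝓞 L))) (m : ℕ), ∀ (y : InfPts L) (a u : adelGrp L),
    u ∈ levelGrp (deepLvl T m) → f y (a * u) = f y a

/-- An automorphic function. -/
structure IsForm (f : InfPts L → adelGrp L → ℂ) : Prop where
  glob_smul : ∀ (γ : G2 L) (y : InfPts L) (a : adelGrp L), f (γ • y) (glob γ * a) = f y a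
  smooth : IsSmooth f
  cont : ∀ a, Continuous fun y => f y a
  bdd : ∃ B, ∀ y a, ‖f y a‖ ≤ B

export FermatAgent.LT.Whit (rt)

omit [IsTotallyComplex L] in
/-- The right translate. -/
@[simp] lemma rt_apply (h : adelGrp L) (f : InfPts L → adelGrp L → ℂ) (y : InfPts L)
    (a : adelGrp L) : rt h f y a = f y (a * h) := rfl

/-- The translations by `d 𝓞` at infinity fix the function on the slice of `a`. -/
def IsPer (f : InfPts L → adelGrp L → ℂ) (a : adelGrp L) (d : L) : Prop :=
  ∀ (β : 𝓞 L) (y : InfPts L), f (transl (infEmb L (d * (β : L))) y) a = f y a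

open Classical in
/-- An integral period, when there is one. -/
def per (f : InfPts L → adelGrp L → ℂ) (a : adelGrp L) : Lˣ :=
  if h : ∃ d : 𝓞 L, d ≠ 0 ∧ IsPer f a (d : L) then
    Units.mk0 (h.choose : L) (by simpa using h.choose_spec.1)
  else 1

/-- The additive character is trivial on the period lattice. -/
lemma psiI_per (f : InfPts L → adelGrp L → ℂ) (a : adelGrp L) (β : 𝓞 L) :
    psiI (infEmb L ((per f a : L) * (β : L))) = 1 := by
  unfold per
  split_ifs with h
  · exact psiI_infEmb_int (h.choose * β) ▸ by simp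
  · simpa using psiI_infEmb_int β

/-- The Whittaker function. -/
def W (f : InfPts L → adelGrp L → ℂ) (y : InfPts L) (a : adelGrp L) : ℂ :=
  meanAt f 1 (per f a) y a

/-- The constant term. -/
def constTerm (f : InfPts L → adelGrp L → ℂ) (y : InfPts L) (a : adelGrp L) : ℂ :=
  meanAt f 0 (per f a) y a

variable {f g : InfPts L → adelGrp L → ℂ} {a b : adelGrp L}

omit [IsTotallyComplex L] in
lemma IsPer.mul_int {d : L} (h : IsPer f a d) (k : 𝓞 L) : IsPer f a (d * (k : L)) := fun β y => by
  rw [mul_assoc, ← map_mul]; exact h (k * β) y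

omit [IsTotallyComplex L] in
lemma IsPer.congr {d : L} (h : IsPer f a d) (e : ∀ y, g y b = f y a) : IsPer g b d :=
  fun β y => by rw [e, e, h β y]

/-- Forms are periodic in the lattice of a period. -/
lemma IsPer.periodic_latA {d : Lˣ} (hd : IsPer f a (d : L)) (n : Idx L → ℤ) (y : InfPts L) :
    f (transl (latA d (ivec n)) y) a = f y a := by
  obtain ⟨β, hβ⟩ := latA_ivec d n
  rw [hβ, hd β]

variable (hf : IsForm f) (hg : IsForm g)

omit [IsTotallyComplex L] in
include hf in
/-- Every slice has an integral period. -/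
theorem IsForm.exists_per (a : adelGrp L) : ∃ d : 𝓞 L, d ≠ 0 ∧ IsPer f a (d : L) := by
  obtain ⟨T, m, h⟩ := hf.smooth
  obtain ⟨d, hd0, hd⟩ := exists_small_per T m a
  refine ⟨d, hd0, fun β y => ?_⟩
  conv_rhs => rw [← hf.glob_smul (nB ((d : L) * (β : L))) y a, nB_smul]
  rw [show glob (nB ((d : L) * (β : L))) * a =
    a * (a⁻¹ * glob (nB ((d : L) * (β : L))) * a) by group, h _ _ _ (hd β)]

omit [IsTotallyComplex L] in
include hf in
/-- Forms have periods. -/
lemma IsForm.isPer_per (a : adelGrp L) : IsPer f a (per f a : L) := by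
  have h := hf.exists_per a
  rw [per, dif_pos h]
  exact h.choose_spec.2

include hf in
lemma IsForm.exists_common_per (hg : IsForm g) (a : adelGrp L) :
    ∃ d : Lˣ, IsPer f a (d : L) ∧ IsPer g a (d : L) ∧
      ∀ β : 𝓞 L, psiI (infEmb L ((d : L) * (β : L))) = 1 := by
  obtain ⟨d, hd0, hd⟩ := hf.exists_per a
  obtain ⟨e, he0, he⟩ := hg.exists_per a
  refine ⟨Units.mk0 ((d : L) * (e : L)) (mul_ne_zero (by simpa using hd0) (by simpa using he0)),
    hd.mul_int e, ?_, fun β => ?_⟩
  · show IsPer g a ((d : L) * (e : L))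
    rw [mul_comm]; exact he.mul_int d
  · exact psiI_infEmb_int (d * e * β) ▸ by simp

include hf in
lemma IsForm.integrable_meanAt (ξ : L) (d : Lˣ) (y : InfPts L) (a : adelGrp L) :
    Integrable (fun c => f (transl (latA d c) y) a * psiI (-(infEmb L ξ * latA d c)))
      (volume.restrict (cube (Idx L))) := by
  obtain ⟨B, hB⟩ := hf.bdd
  exact integrable_cube ((continuous_integrand hf.cont ξ y a).comp (latA d).continuous) (B := B)
    fun c => by rw [norm_mul, norm_psiI, mul_one]; exact hB _ _

include hf in
/-- The mean does not depend on the lattice of periods. -/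
theorem IsForm.meanAt_eq {ξ : L} {d₁ d₂ : Lˣ} (h₁ : IsPer f a (d₁ : L)) (h₂ : IsPer f a (d₂ : L))
    (k₁ : ∀ β : 𝓞 L, psiI (infEmb L (ξ * ((d₁ : L) * (β : L)))) = 1)
    (k₂ : ∀ β : 𝓞 L, psiI (infEmb L (ξ * ((d₂ : L) * (β : L)))) = 1) (y : InfPts L) :
    meanAt f ξ d₁ y a = meanAt f ξ d₂ y a := by
  obtain ⟨B, hB⟩ := hf.bdd
  have hper : ∀ {d : Lˣ}, IsPer f a (d : L) →
      (∀ β : 𝓞 L, psiI (infEmb L (ξ * ((d : L) * (β : L)))) = 1) → ∀ v n,
      f (transl (v + latA d (ivec n)) y) a * psiI (-(infEmb L ξ * (v + latA d (ivec n)))) =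
        f (transl v y) a * psiI (-(infEmb L ξ * v)) := fun {d} hd hk v n => by
    rw [add_comm, transl_add, hd.periodic_latA, mul_add, neg_add, psiI_add, psiI_latA hk, one_mul]
  exact mean_eq (latA d₁) (latA d₂) (G := fun v => f (transl v y) a * psiI (-(infEmb L ξ * v)))
    (continuous_integrand hf.cont ξ y a) (B := B)
    (fun v => by rw [norm_mul, norm_psiI, mul_one]; exact hB _ _) (hper h₁ k₁) (hper h₂ k₂)

include hf in
/-- The Whittaker coefficient from any period. -/
theorem IsForm.W_eq {d : Lˣ} (h : IsPer f a (d : L))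
    (k : ∀ β : 𝓞 L, psiI (infEmb L ((d : L) * (β : L))) = 1) (y : InfPts L) :
    W f y a = meanAt f 1 d y a :=
  hf.meanAt_eq (hf.isPer_per a) h (fun β => by rw [one_mul]; exact psiI_per f a β)
    (fun β => by rw [one_mul]; exact k β) y

include hf in
/-- The constant term from any period. -/
theorem IsForm.constTerm_eq {d : Lˣ} (h : IsPer f a (d : L)) (y : InfPts L) :
    constTerm f y a = meanAt f 0 d y a :=
  hf.meanAt_eq (hf.isPer_per a) h (fun β => by simp) (fun β => by simp) y

lemma meanAt_congr (e : ∀ y, f y a = g y b) (ξ : L) (d : Lˣ) (y : InfPts L) :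
    meanAt f ξ d y a = meanAt g ξ d y b := by
  unfold meanAt
  simp only [e]

include hf hg in
/-- Equal slices have equal Whittaker values. -/
theorem IsForm.W_congr (e : ∀ y, f y a = g y b) (y : InfPts L) : W f y a = W g y b := by
  rw [hg.W_eq ((hf.isPer_per a).congr fun y => (e y).symm) (psiI_per f a)]
  exact meanAt_congr e 1 _ y

omit hf in
lemma IsForm.meanAt_transl {ξ : L} {d : Lˣ} (h : IsPer f a (d : L))
    (k : ∀ β : 𝓞 L, psiI (infEmb L (ξ * ((d : L) * (β : L)))) = 1) (x : InfV L) (y : InfPts L) :
    meanAt f ξ d (transl x y) a = psiI (infEmb L ξ * x) * meanAt f ξ d y a := by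
  set g : (Idx L → ℝ) → ℂ := fun c =>
    f (transl (latA d c) y) a * psiI (-(infEmb L ξ * latA d c))
  have hp : IsPeriodicZ g := fun c n => by
    simp only [g, map_add]
    rw [add_comm, transl_add, h.periodic_latA, mul_add, neg_add, psiI_add, psiI_latA k, one_mul]
  have e := setIntegral_cube_add hp ((latA d).symm x)
  unfold meanAt
  rw [← integral_const_mul]
  show _ = ∫ c in cube (Idx L), psiI (infEmb L ξ * x) * g c
  rw [integral_const_mul, ← e, ← integral_const_mul]
  refine integral_congr_ae (Eventually.of_forall fun c => ?_)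
  simp only [g, map_add, ContinuousLinearEquiv.apply_symm_apply, mul_add, neg_add, psiI_add,
    transl_add]
  have := psiI_neg_mul_self (infEmb L ξ * x)
  linear_combination (f (transl (latA d c) (transl x y)) a * psiI (-(infEmb L ξ * latA d c))) *
    (-this)

include hf in
/-- The Whittaker function transforms under translations. -/
theorem IsForm.W_transl (x : InfV L) (y : InfPts L) (a : adelGrp L) :
    W f (transl x y) a = psiI x * W f y a := by
  rw [W, IsForm.meanAt_transl (hf.isPer_per a) (fun β => by rw [one_mul]; exact psiI_per f a β),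
    map_one, one_mul]
  rfl

include hf in
/-- The constant term is translation invariant. -/
theorem IsForm.constTerm_transl (x : InfV L) (y : InfPts L) (a : adelGrp L) :
    constTerm f (transl x y) a = constTerm f y a := by
  rw [constTerm, IsForm.meanAt_transl (hf.isPer_per a) (fun β => by simp)]
  simp [constTerm]

omit [IsTotallyComplex L] in
include hf in
lemma IsForm.slice_nB (β : L) (y : InfPts L) (a : adelGrp L) :
    f y (glob (nB β) * a) = f (transl (-infEmb L β) y) a := by
  conv_rhs => rw [← hf.glob_smul (nB β) _ a, nB_smul, ← transl_add, add_neg_cancel, transl_zero]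

omit [IsTotallyComplex L] in
include hf in
lemma IsForm.isPer_nB {d : L} (h : IsPer f a d) (β : L) : IsPer f (glob (nB β) * a) d :=
  fun γ y => by
    rw [hf.slice_nB, hf.slice_nB, ← transl_add, add_comm, transl_add, h γ]

include hf in
lemma IsForm.meanAt_nB {ξ : L} {d : Lˣ} (β : L) (y : InfPts L) :
    meanAt f ξ d y (glob (nB β) * a) = meanAt f ξ d (transl (-infEmb L β) y) a := by
  refine integral_congr_ae (Eventually.of_forall fun c => ?_)
  show f _ _ * _ = f _ _ * _
  rw [hf.slice_nB, ← transl_add, add_comm, transl_add]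

include hf in
/-- The Whittaker function transforms under global translations. -/
theorem IsForm.W_nB (β : L) (y : InfPts L) (a : adelGrp L) :
    W f y (glob (nB β) * a) = psiI (-infEmb L β) * W f y a := by
  rw [hf.W_eq (hf.isPer_nB (hf.isPer_per a) β) (psiI_per f a), hf.meanAt_nB,
    ← hf.W_eq (hf.isPer_per a) (psiI_per f a), hf.W_transl]

omit [IsTotallyComplex L] in
include hf in
lemma IsForm.isPer_dG {d : L} (h : IsPer f a d) (α : Lˣ) :
    IsPer f (glob (dG α) * a) ((α : L) * d) := fun γ y => by
  obtain ⟨y, rfl⟩ : ∃ y', (dG α : G2 L) • y' = y := ⟨(dG α : G2 L)⁻¹ • y, smul_inv_smul _ _⟩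
  rw [mul_assoc, map_mul, ← dG_smul_transl, hf.glob_smul, hf.glob_smul, h γ]

include hf in
lemma IsForm.meanAt_dG (α : Lˣ) (d : Lˣ) (ξ : L) (y : InfPts L) (a : adelGrp L) :
    meanAt f ξ (α * d) ((dG α : G2 L) • y) (glob (dG α) * a) =
      meanAt f (ξ * (α : L)) d y a := by
  refine integral_congr_ae (Eventually.of_forall fun c => ?_)
  show f _ _ * _ = f _ _ * _
  rw [show latA (α * d) c = infEmb L (α : L) * latA d c by
      rw [latA_apply, latA_apply, Units.val_mul, map_mul, mul_assoc],
    ← dG_smul_transl, hf.glob_smul, map_mul, mul_assoc]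

include hf in
theorem IsForm.coef_eq_W (α : Lˣ) {d : Lˣ} (h : IsPer f a (d : L))
    (k : ∀ β : 𝓞 L, psiI (infEmb L ((α : L) * ((d : L) * (β : L)))) = 1) (y : InfPts L) :
    meanAt f (α : L) d y a = W f ((dG α : G2 L) • y) (glob (dG α) * a) := by
  rw [hf.W_eq (d := α * d) (by simpa using hf.isPer_dG h α)
    (fun β => by simpa [mul_assoc] using k β), hf.meanAt_dG, one_mul]

omit [IsTotallyComplex L] in
include hf in
/-- Every right translate of a form is a form. -/
theorem IsForm.rt (h : adelGrp L) : IsForm (rt h f) where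
  glob_smul γ y a := by simp only [rt_apply, mul_assoc, hf.glob_smul]
  smooth := by
    obtain ⟨T, m, hU⟩ := hf.smooth
    obtain ⟨T', m', h'⟩ := exists_deep_conj T m h
    refine ⟨T', m', fun y a u hu => ?_⟩
    simp only [rt_apply]
    rw [show a * u * h = a * h * (h⁻¹ * u * h) by group, hU _ _ _ (h' u hu)]
  cont a := hf.cont (a * h)
  bdd := hf.bdd.imp fun B hB y a => hB y (a * h)

include hf in
/-- The Whittaker function of a translate. -/
theorem IsForm.W_rt (h : adelGrp L) (y : InfPts L) (a : adelGrp L) :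
    W (Whit.rt h f) y a = W f y (a * h) :=
  (hf.rt h).W_congr hf (fun _ => rfl) y

include hf in
/-- The Whittaker function inherits right invariance. -/
theorem IsForm.W_right {u : adelGrp L} (hu : ∀ y b, f y (b * u) = f y b) (y : InfPts L)
    (a : adelGrp L) : W f y (a * u) = W f y a :=
  hf.W_congr hf (fun y => hu y a) y

section

omit [IsTotallyComplex L]

/-- Zero is a form. -/
lemma IsForm.zero : IsForm (0 : InfPts L → adelGrp L → ℂ) :=
  ⟨fun _ _ _ => rfl, ⟨∅, 0, fun _ _ _ _ => rfl⟩, fun _ => continuous_const,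
    ⟨0, fun _ _ => by simp⟩⟩

include hf hg in
/-- Sums of forms are forms. -/
theorem IsForm.add : IsForm (f + g) where
  glob_smul γ y a := by simp [hf.glob_smul, hg.glob_smul]
  smooth := by
    classical
    obtain ⟨T, m, h⟩ := hf.smooth
    obtain ⟨T', m', h'⟩ := hg.smooth
    refine ⟨T ∪ T', max m m', fun y a u hu => ?_⟩
    simp only [Pi.add_apply]
    rw [h y a u (levelGrp_deep_mono Finset.subset_union_left (le_max_left _ _) hu),
      h' y a u (levelGrp_deep_mono Finset.subset_union_right (le_max_right _ _) hu)]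
  cont a := (hf.cont a).add (hg.cont a)
  bdd := by
    obtain ⟨B, hB⟩ := hf.bdd
    obtain ⟨C, hC⟩ := hg.bdd
    exact ⟨B + C, fun y a => (norm_add_le _ _).trans (add_le_add (hB y a) (hC y a))⟩

include hf in
/-- Multiples of forms are forms. -/
theorem IsForm.smul (r : ℂ) : IsForm (r • f) where
  glob_smul γ y a := by simp [hf.glob_smul]
  smooth := by
    obtain ⟨T, m, h⟩ := hf.smooth
    exact ⟨T, m, fun y a u hu => by simp [h y a u hu]⟩
  cont a := (hf.cont a).const_smul r
  bdd := by
    obtain ⟨B, hB⟩ := hf.bdd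
    exact ⟨‖r‖ * B, fun y a => by
      simp only [Pi.smul_apply, norm_smul]
      exact mul_le_mul_of_nonneg_left (hB y a) (norm_nonneg r)⟩

include hf hg in
/-- Differences of forms are forms. -/
theorem IsForm.sub : IsForm (f - g) := by
  rw [show f - g = f + (-1 : ℂ) • g by simp [sub_eq_add_neg]]
  exact hf.add (hg.smul _)

end

include hf hg in
theorem IsForm.W_add (y : InfPts L) (a : adelGrp L) : W (f + g) y a = W f y a + W g y a := by
  obtain ⟨d, h1, h2, hd⟩ := hf.exists_common_per hg a
  rw [(hf.add hg).W_eq (fun β y => by simp only [Pi.add_apply]; rw [h1 β y, h2 β y]) hd,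
    hf.W_eq h1 hd, hg.W_eq h2 hd]
  simp only [meanAt, Pi.add_apply, add_mul]
  exact integral_add (hf.integrable_meanAt 1 _ y a) (hg.integrable_meanAt 1 _ y a)

include hf in
/-- The Whittaker function of a multiple. -/
theorem IsForm.W_smul (r : ℂ) (y : InfPts L) (a : adelGrp L) :
    W (r • f) y a = r * W f y a := by
  rw [(hf.smul r).W_eq (d := per f a)
    (fun β y => by simp only [Pi.smul_apply]; rw [hf.isPer_per a β y]) (psiI_per f a)]
  simp only [W, meanAt, Pi.smul_apply, smul_eq_mul, mul_assoc]
  exact integral_const_mul _ _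

/-- The Whittaker function of zero. -/
@[simp] theorem W_zero (y : InfPts L) (a : adelGrp L) :
    W (0 : InfPts L → adelGrp L → ℂ) y a = 0 := by simp [W, meanAt]

include hf hg in
/-- The Whittaker function of a difference. -/
theorem IsForm.W_sub (y : InfPts L) (a : adelGrp L) : W (f - g) y a = W f y a - W g y a := by
  rw [show f - g = f + (-1 : ℂ) • g by simp [sub_eq_add_neg], hf.W_add (hg.smul _), hg.W_smul]
  ring

omit [IsTotallyComplex L] in
/-- Finite sums of forms are forms. -/
lemma IsForm.sum {ι : Type*} (s : Finset ι) (F : ι → InfPts L → adelGrp L → ℂ)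
    (h : ∀ i ∈ s, IsForm (F i)) : IsForm (∑ i ∈ s, F i) := by
  classical
  induction s using Finset.induction_on with
  | empty => simpa using IsForm.zero
  | insert b s hb ih =>
    rw [Finset.sum_insert hb]
    exact (h b (Finset.mem_insert_self _ _)).add (ih fun i hi => h i (Finset.mem_insert_of_mem hi))

/-- The Whittaker function of a finite sum. -/
theorem W_sum {ι : Type*} (s : Finset ι) (F : ι → InfPts L → adelGrp L → ℂ)
    (h : ∀ i ∈ s, IsForm (F i)) (y : InfPts L) (a : adelGrp L) :
    W (∑ i ∈ s, F i) y a = ∑ i ∈ s, W (F i) y a := by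
  classical
  induction s using Finset.induction_on with
  | empty => simp
  | insert b s hb ih =>
    have hs := IsForm.sum s F fun i hi => h i (Finset.mem_insert_of_mem hi)
    rw [Finset.sum_insert hb, Finset.sum_insert hb,
      (h b (Finset.mem_insert_self _ _)).W_add hs, ih fun i hi => h i (Finset.mem_insert_of_mem hi)]

include hf in
/-- The Fourier coefficients are values of the Whittaker function. -/
theorem IsForm.fourier_slice {d : Lˣ} (h : IsPer f a (d : L)) (y : InfPts L)
    {n : Idx L → ℤ} (hn : n ≠ 0) :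
    ∃ α : Lˣ, (∀ c, psiI (infEmb L (α : L) * latA d c) = chr n c) ∧
      ∫ c in cube (Idx L), chr (-n) c * slice f d y a c =
        W f ((dG α : G2 L) • y) (glob (dG α) * a) := by
  obtain ⟨ξ, h1, h2, h3⟩ := exists_dual d n
  refine ⟨Units.mk0 ξ fun e => hn (h3 e), h1, ?_⟩
  rw [← hf.coef_eq_W (Units.mk0 ξ fun e => hn (h3 e)) h h2 y]
  refine integral_congr_ae (Eventually.of_forall fun c => ?_)
  show chr (-n) c * f _ a = f _ a * psiI (-(infEmb L ξ * latA d c))
  have e1 : chr (-n) c * chr n c = 1 := by
    rw [chr, chr, ← Complex.exp_add]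
    simp
  have e2 := psiI_neg_mul_self (infEmb L ξ * latA d c)
  rw [h1] at e2
  linear_combination (f (transl (latA d c) y) a) *
    (psiI (-(infEmb L ξ * latA d c)) * e1 - chr (-n) c * e2)

include hf in
/-- The constant term and the Whittaker function determine a form. -/
theorem IsForm.eq_zero_of_coef {y : InfPts L} (h0 : constTerm f y a = 0)
    (hW : ∀ α : Lˣ, W f ((dG α : G2 L) • y) (glob (dG α) * a) = 0) : f y a = 0 := by
  have h := hf.isPer_per a
  have hp : IsPeriodicZ (slice f (per f a) y a) := fun c n => by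
    simp only [slice, map_add]
    rw [add_comm, transl_add, h.periodic_latA]
  have hc : Continuous (slice f (per f a) y a) :=
    (hf.cont a).comp ((continuous_transl_right y).comp (latA (per f a)).continuous)
  have key : ∀ c, slice f (per f a) y a c = 0 := by
    refine eq_zero_of_fourier hp hc fun n => ?_
    by_cases hn : n = 0
    · subst hn
      rw [← h0, hf.constTerm_eq h]
      refine integral_congr_ae (Eventually.of_forall fun c => ?_)
      simp [chr, slice]
    · obtain ⟨α, -, e⟩ := hf.fourier_slice h y hn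
      rw [e, hW]
  simpa [slice] using key 0

include hf in
/-- The constant term and the Whittaker values away from finitely many places determine a form. -/
theorem IsForm.eq_zero_of_off (P : Finset (HeightOneSpectrum (𝓞 L)))
    (h0 : ∀ y b, constTerm f y b = 0)
    (hW : ∀ (y : InfPts L) (b : adelGrp L),
      (∀ v ∈ P, ∃ α : Lˣ, b.1 v = dG α) → W f y b = 0)
    (y : InfPts L) (a : adelGrp L) : f y a = 0 := by
  obtain ⟨T, m, hU⟩ := hf.smooth
  obtain ⟨γ, a', u, hu, ha', rfl⟩ := exists_glob_mul T P m a
  obtain ⟨y, rfl⟩ : ∃ y', γ • y' = y := ⟨γ⁻¹ • y, smul_inv_smul _ _⟩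
  rw [hU _ _ _ hu, hf.glob_smul]
  refine hf.eq_zero_of_coef (h0 _ _) fun α => hW _ _ fun v hv => ⟨α, ?_⟩
  show dG α * a'.1 v = dG α
  rw [ha' v hv, mul_one]

end FermatAgent.LT2.Whit
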