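import Fermat.Agent.LT.Whit.Rules
import Fermat.Agent.LT2.Whit.Coef

/-!
# The archimedean behaviour of the Whittaker function at deep level
-/

set_option autoImplicit false

noncomputable section

open Matrix IsDedekindDomain NumberField Filter MeasureTheory
open FermatAgent.LT FermatAgent.LT.Whit
open scoped MatrixGroups ContDiff Topology

namespace FermatAgent.LT2.Whit

variable {L : Type*} [Field L] [NumberField L] [IsTotallyComplex L]
  {f : InfPts L → adelGrp L → ℂ} (hf : IsForm f) (hr : IsRadial f)

/-- The Whittaker function is bounded by the sup norm. -/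
lemma IsForm.norm_W_le {B : ℝ} (hB : ∀ y a, ‖f y a‖ ≤ B) (y : InfPts L) (a : adelGrp L) :
    ‖W f y a‖ ≤ B :=
  norm_meanAt_le hB _ _ y a

open Classical in
/-- The Whittaker function at one infinite place along the height. -/
def archU (f : InfPts L → adelGrp L → ℂ) (y : InfPts L)
    (w : InfinitePlace L) (a : adelGrp L) (t : ℝ) : ℂ :=
  if h : 0 < t then W f (Function.update y w ⟨(y w).z, t, h⟩) a / (t : ℂ) else 0

include hf hr in
/-- The Whittaker function is an archimedean Whittaker function in each place. -/
theorem isWhit_archU (y : InfPts L) (w : InfinitePlace L) (a : adelGrp L) :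
    IsWhit (4 * Real.pi) (archU f y w a) := by
  obtain ⟨B, hB⟩ := hf.bdd
  exact isWhit_of_radial (V := fun y => W f y a) (fun x y => hf.W_transl x y a)
    (fun w y => continuous_meanAt_update hf.cont hf.bdd _ _ w y a)
    ⟨B, fun y => IsForm.norm_W_le hB y a⟩
    (fun w k hk hs y => meanAt_radial hr hf.cont hf.bdd 1 _ w k hk hs y a) y w

/-- Vanishing at the base point at infinity gives vanishing everywhere at infinity. -/
theorem W_eq_zero_of_base (hf : IsForm f) (hr : IsRadial f) (a : adelGrp L)
    (h0 : W f baseY a = 0) (y : InfPts L) : W f y a = 0 := by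
  obtain ⟨B, hB⟩ := hf.bdd
  exact eq_zero_of_base (V := fun y => W f y a) (fun x y => hf.W_transl x y a)
    (fun w y => continuous_meanAt_update hf.cont hf.bdd _ _ w y a)
    ⟨B, fun y => IsForm.norm_W_le hB y a⟩
    (fun w k hk hs y => meanAt_radial hr hf.cont hf.bdd 1 _ w k hk hs y a) h0 y

variable {g : InfPts L → adelGrp L → ℂ}

omit [IsTotallyComplex L] in
/-- Differences of radial forms are radial. -/
theorem IsRadial.sub' (hf : IsForm f) (hr : IsRadial f) (hg : IsForm g) (hgr : IsRadial g) :
    IsRadial (f - g) := by
  classical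
  intro w k hk hs y a
  have hint : ∀ F : InfPts L → adelGrp L → ℂ, IsForm F → Integrable
      (fun p => (k (H3.coshDist (y w) p) : ℂ) * F (Function.update y w p) a) H3.vol := by
    intro F hF
    obtain ⟨B, hB⟩ := hF.bdd
    exact integrable_radial_mul hk.continuous hs _
      ⟨((hF.cont a).comp (continuous_const.update w continuous_id)).measurable,
        fun _ _ _ _ => ⟨B, fun q _ => hB _ _⟩⟩
  simp only [kint, Pi.sub_apply, mul_sub]
  rw [integral_sub (hint f hf) (hint g hg)]
  have h1 := hr w k hk hs y a
  have h2 := hgr w k hk hs y a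
  rw [kint] at h1 h2
  rw [h1, h2]

omit [IsTotallyComplex L] in
/-- Multiples of radial forms are radial. -/
theorem IsRadial.smul' (hr : IsRadial f) (r : ℂ) : IsRadial (r • f) := by
  intro w k hk hs y a
  have h := hr w k hk hs y a
  simp only [kint, Pi.smul_apply, smul_eq_mul] at h ⊢
  simp only [mul_left_comm _ r]
  rw [integral_const_mul, h]

end FermatAgent.LT2.Whit
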