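import Fermat.Agent.LT.Whit.Hecke
import Fermat.Agent.LT2.Whit.Coef

/-!
# Local rules for the Whittaker function at deep level

Translations at one place act by the local character; at a place where the form is invariant under
the maximal compact subgroup and is a Hecke eigenfunction one value determines the others along
the torus.
-/

set_option autoImplicit false

noncomputable section

open Matrix IsDedekindDomain NumberField Filter WithZero MeasureTheory
open FermatAgent.LT FermatAgent.LT.Whit
open FermatAgent.LT.Theta.LocalChar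
open scoped MatrixGroups

namespace FermatAgent.LT2.Whit

variable {L : Type*} [Field L] [NumberField L]

/-- Invariance on the right under a subgroup at one place. -/
def FixedAt (f : InfPts L → adelGrp L → ℂ) (v : HeightOneSpectrum (𝓞 L)) (H : Subgroup (G2 L)) :
    Prop :=
  ∀ g ∈ H, ∀ (y : InfPts L) (a : adelGrp L), f y (a * atV v g) = f y a

section Fixed

variable {f : InfPts L → adelGrp L → ℂ} {v : HeightOneSpectrum (𝓞 L)}

/-- Congruent neighbours with any uniformiser have the same effect on a form. -/
lemma FixedAt.nbr_congr (hv : FixedAt f v (locK v)) {s t : L}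
    (h : v.valuation L (s - t) < 1) {ϖ : Lˣ} (hϖ : v.valuation L (ϖ : L) = exp (-1 : ℤ))
    (y : InfPts L) (a : adelGrp L) :
    f y (a * atV v (nB s * dG ϖ)) = f y (a * atV v (nbr v t)) := by
  have hu : v.valuation L (((unifU v)⁻¹ * ϖ : Lˣ) : L) = 1 := by
    rw [Units.val_mul, map_mul, hϖ, Units.val_inv_eq_inv_val, map_inv₀, v_unifU,
      inv_mul_cancel₀ exp_ne_zero]
  have e0 : (nB s * dG ϖ : G2 L) =
      nbr v t * (dG ((unifU v)⁻¹ * ϖ) * nB ((s - t) / (ϖ : L))) := by
    have h1 : dG (unifU v) * dG ((unifU v)⁻¹ * ϖ) = dG ϖ := by rw [← dG_mul, mul_inv_cancel_left]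
    calc (nB s * dG ϖ : G2 L) = nB t * (nB (s - t) * dG ϖ) := by
          rw [← mul_assoc, ← nB_add, add_sub_cancel]
      _ = nB t * (dG ϖ * nB ((s - t) / (ϖ : L))) := by
          rw [dG_mul_nB, mul_div_cancel₀ _ ϖ.ne_zero]
      _ = _ := by rw [← h1]; simp only [nbr, mul_assoc]
  rw [e0, map_mul, ← mul_assoc, hv _ (mul_mem (dG_mem_locK hu) (nB_mem_locK ?_))]
  rw [map_div₀, hϖ]
  exact div_le_one_of_le₀ (val_le_exp_of_lt_one h) zero_le

/-- The neighbour along the inverse of any uniformiser. -/
lemma FixedAt.nbrLast_congr (hv : FixedAt f v (locK v)) {ϖ : Lˣ}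
    (hϖ : v.valuation L (ϖ : L) = exp (-1 : ℤ)) (y : InfPts L) (a : adelGrp L) :
    f y (a * atV v (dG ϖ⁻¹)) = f y (a * atV v (nbrLast v)) := by
  have hu : v.valuation L ((unifU v * ϖ⁻¹ : Lˣ) : L) = 1 := by
    rw [Units.val_mul, map_mul, v_unifU, Units.val_inv_eq_inv_val, map_inv₀, hϖ,
      mul_inv_cancel₀ exp_ne_zero]
  rw [show atV v (dG ϖ⁻¹) = atV v (nbrLast v) * atV v (dG (unifU v * ϖ⁻¹)) by
    rw [← map_mul, nbrLast, ← dG_mul, inv_mul_cancel_left], ← mul_assoc, hv _ (dG_mem_locK hu)]

lemma rt_atV {h : adelGrp L} (hh : h.1 v = 1) (g : G2 L) (y : InfPts L) (a : adelGrp L) :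
    rt h f y (a * atV v g) = f y (a * h * atV v g) := by
  rw [rt_apply, mul_assoc, atV_mul_of_eq_one hh, ← mul_assoc]

/-- Translations away from the place keep the invariance there. -/
lemma FixedAt.rt {H : Subgroup (G2 L)} (hv : FixedAt f v H) {h : adelGrp L} (hh : h.1 v = 1) :
    FixedAt (Whit.rt h f) v H := fun g hg y a => by
  rw [rt_atV hh, hv g hg, rt_apply]

/-- Translations away from the place commute with the Hecke operator there. -/
lemma heckeT_rt {c : ℂ} (hc : heckeT v f = c • f) {h : adelGrp L} (hh : h.1 v = 1) :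
    heckeT v (Whit.rt h f) = c • Whit.rt h f := by
  funext y a
  simpa only [heckeT, Pi.smul_apply, smul_eq_mul, rt_atV hh, rt_apply] using
    congrFun (congrFun hc y) (a * h)

end Fixed

variable [IsTotallyComplex L] {f : InfPts L → adelGrp L → ℂ} (hf : IsForm f)

include hf in
/-- The Whittaker function is right invariant under fixers. -/
lemma IsForm.W_fixed {v : HeightOneSpectrum (𝓞 L)} {H : Subgroup (G2 L)} (hH : FixedAt f v H)
    {g : G2 L} (hg : g ∈ H) (y : InfPts L) (a : adelGrp L) :
    W f y (a * atV v g) = W f y a :=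
  hf.W_right (hH g hg) y a

include hf in
/-- Translations at one place act by the local character. -/
theorem IsForm.W_atV_nB (v : HeightOneSpectrum (𝓞 L)) (x : L) (y : InfPts L) (a : adelGrp L) :
    W f y (atV v (nB x) * a) = psiV v x * W f y a := by
  classical
  obtain ⟨S, m, hU⟩ := hf.smooth
  choose N hN using fun w => exists_small_nB w (a.1 w) m
  let T : Finset (HeightOneSpectrum (𝓞 L)) :=
    insert v (S ∪ (eventually_cofinite.1 a.2).toFinset)
  obtain ⟨β, hβ, hβ'⟩ :=
    Theta.Approx.exists_approx T (fun w => if w = v then x else 0) (T.sup N)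
  have hT : ∀ w ∈ T, w.valuation L (β - (if w = v then x else 0)) ≤ exp (-(N w : ℤ)) :=
    fun w hw => (hβ w hw).trans (by
      rw [exp_le_exp]
      have := Finset.le_sup (f := N) hw
      omega)
  have hv : v ∈ T := Finset.mem_insert_self _ _
  have hpart : IsPart v x β := by
    refine ⟨?_, fun w hw => ?_⟩
    · rw [Valuation.map_sub_swap]
      have := hT v hv
      rw [if_pos rfl] at this
      exact this.trans (by rw [← exp_zero, exp_le_exp]; omega)
    · by_cases hwT : w ∈ T
      · have := hT w hwT
        rw [if_neg hw, sub_zero] at this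
        exact this.trans (by rw [← exp_zero, exp_le_exp]; omega)
      · exact hβ' w hwT
  let b : adelGrp L := atV v (nB x) * a
  have hu : (glob (nB β) * a)⁻¹ * b ∈ levelGrp (deepLvl S m) := by
    intro w
    show ((nB β) * a.1 w)⁻¹ * ((atV v (nB x)).1 w * a.1 w) ∈ _
    rw [show ((nB β : G2 L) * a.1 w)⁻¹ * ((atV v (nB x)).1 w * a.1 w) =
      ((a.1 w)⁻¹ * (((atV v (nB x)).1 w)⁻¹ * nB β) * a.1 w)⁻¹ by group]
    refine Subgroup.inv_mem _ ?_
    by_cases hwT : w ∈ T
    · refine locKN_le_deepLvl w ?_
      have := hT w hwT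
      by_cases hw : w = v
      · subst hw
        rw [atV_same, ← nB_neg, ← nB_add, neg_add_eq_sub]
        exact hN w _ (by simpa using this)
      · rw [atV_ne hw, inv_one, one_mul]
        exact hN w _ (by simpa [hw] using this)
    · have hw : w ≠ v := fun e => hwT (e ▸ hv)
      have hwT' := hwT
      simp only [T, Finset.mem_insert, Finset.mem_union, Set.Finite.mem_toFinset,
        Set.mem_ofPred_eq, not_or, not_not] at hwT
      rw [atV_ne hw, inv_one, one_mul, deepLvl_loc_of_notMem hwT.2.1]
      exact mul_mem (mul_mem (inv_mem hwT.2.2) (nB_mem_locK (hβ' w hwT'))) hwT.2.2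
  rw [show atV v (nB x) * a = glob (nB β) * a * ((glob (nB β) * a)⁻¹ * b) from
      (mul_inv_cancel_left _ _).symm,
    hf.W_right (fun y c => hU y c _ hu), hf.W_nB]
  congr 1
  rw [← map_neg, psiI_infEmb, psiV, ψloc_eq (a := -x) (b := -β) ⟨?_, fun w hw => ?_⟩]
  · rw [show -x - -β = -(x - β) by ring, Valuation.map_neg]; exact hpart.1
  · rw [Valuation.map_neg]; exact hpart.2 w hw

include hf in
/-- Along the torus at `v` the translations act through the character. -/
theorem IsForm.W_dG_mul_nB {v : HeightOneSpectrum (𝓞 L)} {a : adelGrp L} {α : Lˣ}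
    (ha : a.1 v = dG α) (b : L) (y : InfPts L) :
    W f y (a * atV v (nB b)) = psiV v ((α : L) * b) * W f y a := by
  have e : a * atV v (nB b) = atV v (nB ((α : L) * b)) * a := by
    rw [atV_mul_self, ha]
    congr 2
    rw [mul_assoc, ← dG_mul_nB, inv_mul_cancel_left]
  rw [e, hf.W_atV_nB]

include hf in
/-- The support along the torus: translations of size `exp k` that fix the form bound it. -/
theorem IsForm.W_eq_zero_of_fix {v : HeightOneSpectrum (𝓞 L)} {k : ℤ}
    (hk : ∀ b : L, v.valuation L b ≤ exp k → ∀ y c, f y (c * atV v (nB b)) = f y c)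
    {a : adelGrp L} {α : Lˣ} (ha : a.1 v = dG α)
    (hα : exp (cnd v + 1) ≤ v.valuation L (α : L) * exp k) (y : InfPts L) : W f y a = 0 := by
  obtain ⟨b, hb, hne⟩ := exists_psiV_mul_ne_one (v := v) (x := (α : L)) (m := k) hα
  have h := hf.W_dG_mul_nB ha b y
  rw [hf.W_right (hk b hb)] at h
  have h' : (psiV v ((α : L) * b) - 1) * W f y a = 0 := by linear_combination -h
  exact (mul_eq_zero.1 h').resolve_left (sub_ne_zero.2 hne)

include hf in
/-- The support along the torus at a maximal place. -/
theorem IsForm.W_eq_zero_of_lt' {v : HeightOneSpectrum (𝓞 L)} (hv : FixedAt f v (locK v))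
    {a : adelGrp L} {α : Lˣ} (ha : a.1 v = dG α)
    (hα : exp (cnd v + 1) ≤ v.valuation L (α : L)) (y : InfPts L) : W f y a = 0 :=
  hf.W_eq_zero_of_fix (k := 0) (fun b hb => hv _ (nB_mem_locK (by rwa [exp_zero] at hb))) ha
    (by rwa [exp_zero, mul_one]) y

include hf in
/-- Linear relations between translates pass to the Whittaker function. -/
theorem IsForm.W_rel {ι : Type*} (s : Finset ι) (r : ι → ℂ) (a : ι → adelGrp L)
    (h : ∀ y b, ∑ i ∈ s, r i * f y (b * a i) = 0) (y : InfPts L) (b : adelGrp L) :
    ∑ i ∈ s, r i * W f y (b * a i) = 0 := by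
  have hF : ∀ i ∈ s, IsForm (r i • Whit.rt (a i) f) := fun i _ => (hf.rt _).smul _
  have e : (∑ i ∈ s, r i • Whit.rt (a i) f) = 0 := by
    funext y b
    simpa using h y b
  have := W_sum s (fun i => r i • Whit.rt (a i) f) hF y b
  rw [e, W_zero] at this
  rw [this]
  exact Finset.sum_congr rfl fun i _ => by rw [(hf.rt _).W_smul, hf.W_rt]

variable (v : HeightOneSpectrum (𝓞 L))

include hf in
/-- An eigenfunction of the Hecke operator: the relation for its Whittaker function. -/
theorem IsForm.W_heckeT {c : ℂ} (hc : heckeT v f = c • f) (y : InfPts L) (a : adelGrp L) :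
    (∑ t ∈ residues v, W f y (a * atV v (nbr v t))) + W f y (a * atV v (nbrLast v)) =
      c * W f y a := by
  classical
  have := hf.W_rel (ι := Option (Option (residues v))) Finset.univ
    (fun o => o.elim (-c) fun _ => 1)
    (fun o => o.elim 1 fun o => atV v (o.elim (nbrLast v) fun t => nbr v t.1))
    (fun z b => by
      simp only [Fintype.sum_option, Option.elim_none, Option.elim_some, one_mul, mul_one]
      rw [Finset.sum_coe_sort (residues v) fun t => f z (b * atV v (nbr v t))]
      have h := congrFun (congrFun hc z) b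
      simp only [heckeT, Pi.smul_apply, smul_eq_mul] at h
      linear_combination h) y a
  simp only [Fintype.sum_option, Option.elim_none, Option.elim_some, one_mul, mul_one] at this
  rw [Finset.sum_coe_sort (residues v) fun t => W f y (a * atV v (nbr v t))] at this
  linear_combination this

include hf in
/-- The Whittaker function on the torus depends only on the valuation. -/
lemma IsForm.W_dG_unit (hv : FixedAt f v (locK v)) {a : adelGrp L} (α β : Lˣ)
    (h : v.valuation L (α : L) = v.valuation L (β : L)) (y : InfPts L) :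
    W f y (a * atV v (dG α)) = W f y (a * atV v (dG β)) := by
  rw [show atV v (dG α) = atV v (dG β) * atV v (dG (β⁻¹ * α)) by
    rw [← map_mul, ← dG_mul, mul_inv_cancel_left], ← mul_assoc, hf.W_fixed hv]
  refine dG_mem_locK ?_
  rw [Units.val_mul, map_mul, h, Units.val_inv_eq_inv_val, map_inv₀,
    inv_mul_cancel₀ ((Valuation.ne_zero_iff _).2 β.ne_zero)]

include hf in
/-- The recursion along the torus at a good place, from the first layer of the support. -/
theorem IsForm.W_recursion' (hv : FixedAt f v (locK v)) {c : ℂ} (hc : heckeT v f = c • f)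
    {a : adelGrp L} (ha : a.1 v = 1) (y : InfPts L) (n : ℕ) :
    W f y (a * atV v (dG (unifU v ^ ((n : ℤ) - cnd v)))) =
      heckeSeq (v.asIdeal.absNorm : ℂ) c n * W f y (a * atV v (dG (unifU v ^ (-cnd v)))) := by
  have hq : (v.asIdeal.absNorm : ℂ) ≠ 0 := by
    have := Theta.Place.one_lt_qv v
    exact_mod_cast (zero_lt_one.trans this).ne'
  set V : ℤ → ℂ := fun m => W f y (a * atV v (dG (unifU v ^ m))) with hV
  have step : ∀ m : ℤ, -cnd v ≤ m →
      (v.asIdeal.absNorm : ℂ) * V (m + 1) + V (m - 1) = c * V m := by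
    intro m hm
    simp only [hV]
    rw [← hf.W_heckeT v hc y (a * atV v (dG (unifU v ^ m)))]
    congr 1
    · rw [Finset.sum_congr rfl (g := fun _ => W f y (a * atV v (dG (unifU v ^ (m + 1)))))
        fun t ht => ?_]
      · simp [card_residues]
      · have e : a * atV v (dG (unifU v ^ m)) * atV v (nbr v t) =
            atV v (nB (((unifU v ^ m : Lˣ) : L) * t)) * (a * atV v (dG (unifU v ^ (m + 1)))) := by
          rw [mul_assoc, ← map_mul, nbr, ← mul_assoc, dG_mul_nB, mul_assoc, ← dG_mul,
            ← _root_.zpow_add_one, map_mul, ← mul_assoc, ← atV_mul_of_eq_one ha, mul_assoc]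
        rw [e, hf.W_atV_nB, psiV_eq_one, one_mul]
        rw [map_mul, v_unifU_zpow]
        exact (mul_le_of_le_one_right' ((isResidues v).le_one t ht)).trans
          (exp_le_exp.2 (by omega))
    · rw [mul_assoc, ← map_mul, nbrLast, ← dG_mul, ← _root_.zpow_sub_one]
  have h0 : V (-cnd v - 1) = 0 := by
    refine hf.W_eq_zero_of_lt' hv (α := unifU v ^ (-cnd v - 1)) (by simp [ha]) ?_ y
    rw [v_unifU_zpow, exp_le_exp]
    omega
  show V ((n : ℤ) - cnd v) = _ * V (-cnd v)
  induction n using Nat.strong_induction_on with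
  | _ n ih =>
    match n with
    | 0 => simp [heckeSeq]
    | 1 =>
      have h := step (-cnd v) le_rfl
      rw [h0, add_zero, show -cnd v + 1 = ((1 : ℕ) : ℤ) - cnd v by push_cast; ring] at h
      rw [heckeSeq]
      field_simp
      linear_combination h
    | m + 2 =>
      have h := step ((m : ℤ) + 1 - cnd v) (by omega)
      rw [show (m : ℤ) + 1 - cnd v + 1 = ((m + 2 : ℕ) : ℤ) - cnd v by push_cast; ring,
        show (m : ℤ) + 1 - cnd v - 1 = (m : ℤ) - cnd v by ring,
        show (m : ℤ) + 1 - cnd v = ((m + 1 : ℕ) : ℤ) - cnd v by push_cast; ring,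
        ih m (by omega), ih (m + 1) (by omega)] at h
      rw [heckeSeq]
      field_simp
      linear_combination h

end FermatAgent.LT2.Whit
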